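import Mathlib

/-!
# Row S56 / FLAT-O / FO-CNT — calculus of `ψ`-cocycles (helper974)

Abstract group theory (Mathlib only).  `D ≥ I` subgroups of a group `G`, `I` stable under
conjugation by `D`, `ψ : G → k` multiplicative on `D`, `b : G → k` a `ψ`-cocycle on `D`:
`b (σ τ) = b σ + ψ σ * b τ`.

* `cocycle_conj`        : `b (σ ι σ⁻¹) = ψ σ * b ι` if `ψ ι = 1`;
* `coboundary_of_vanish` : if `b` vanishes on `{ι ∈ I | ψ ι = 1}` and `ψ` is not trivial on `I`,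
  then `b σ = (ψ σ - 1) * m` on `D`.
-/

set_option autoImplicit false

namespace Fermat.Agent.S56.H974

variable {G : Type*} [Group G] {k : Type*} [Field k]

/-- `ψ` is multiplicative on the subgroup `D`. -/
structure IsMulOn (D : Subgroup G) (ψ : G → k) : Prop where
  map_one : ψ 1 = 1
  map_mul : ∀ σ ∈ D, ∀ τ ∈ D, ψ (σ * τ) = ψ σ * ψ τ

/-- `b` is a `ψ`-cocycle on the subgroup `D`. -/
def IsCocOn (D : Subgroup G) (ψ b : G → k) : Prop :=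
  ∀ σ ∈ D, ∀ τ ∈ D, b (σ * τ) = b σ + ψ σ * b τ

/-- `b` is the `ψ`-coboundary of `m` on `D`. -/
def IsCobOn (D : Subgroup G) (ψ b : G → k) : Prop :=
  ∃ m : k, ∀ σ ∈ D, b σ = (ψ σ - 1) * m

namespace IsMulOn

variable {D : Subgroup G} {ψ : G → k}

theorem map_inv (h : IsMulOn D ψ) {σ : G} (hσ : σ ∈ D) : ψ σ⁻¹ = (ψ σ)⁻¹ := by
  have h1 := h.map_mul σ hσ σ⁻¹ (D.inv_mem hσ)
  rw [mul_inv_cancel, h.map_one] at h1
  exact eq_inv_of_mul_eq_one_right h1.symm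

theorem ne_zero (h : IsMulOn D ψ) {σ : G} (hσ : σ ∈ D) : ψ σ ≠ 0 := by
  intro h0
  have h1 := h.map_mul σ hσ σ⁻¹ (D.inv_mem hσ)
  rw [mul_inv_cancel, h.map_one, h0, zero_mul] at h1
  exact one_ne_zero h1

end IsMulOn

section

variable {D : Subgroup G} {ψ b b' : G → k}

theorem IsCocOn.map_one (hψ : IsMulOn D ψ) (hb : IsCocOn D ψ b) : b 1 = 0 := by
  have h := hb 1 D.one_mem 1 D.one_mem
  rw [mul_one, hψ.map_one, one_mul] at h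
  exact left_eq_add.mp h

theorem IsCocOn.add (hb : IsCocOn D ψ b) (hb' : IsCocOn D ψ b') :
    IsCocOn D ψ (fun σ => b σ + b' σ) := by
  intro σ hσ τ hτ
  show b (σ * τ) + b' (σ * τ) = b σ + b' σ + ψ σ * (b τ + b' τ)
  rw [hb σ hσ τ hτ, hb' σ hσ τ hτ]
  ring

theorem IsCocOn.smul (x : k) (hb : IsCocOn D ψ b) : IsCocOn D ψ (fun σ => x * b σ) := by
  intro σ hσ τ hτ
  show x * b (σ * τ) = x * b σ + ψ σ * (x * b τ)
  rw [hb σ hσ τ hτ]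
  ring

theorem isCocOn_coboundary (hψ : IsMulOn D ψ) (m : k) :
    IsCocOn D ψ (fun σ => (ψ σ - 1) * m) := by
  intro σ hσ τ hτ
  show (ψ (σ * τ) - 1) * m = (ψ σ - 1) * m + ψ σ * ((ψ τ - 1) * m)
  rw [hψ.map_mul σ hσ τ hτ]
  ring

/-- Conjugation formula: `b (σ ι σ⁻¹) = ψ σ * b ι` when `ψ ι = 1`. -/
theorem cocycle_conj (hψ : IsMulOn D ψ) (hb : IsCocOn D ψ b) {σ ι : G} (hσ : σ ∈ D)
    (hι : ι ∈ D) (hι1 : ψ ι = 1) : b (σ * ι * σ⁻¹) = ψ σ * b ι := by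
  have hσi : σ⁻¹ ∈ D := D.inv_mem hσ
  have h1 := hb (σ * ι) (D.mul_mem hσ hι) σ⁻¹ hσi
  have h2 := hb σ hσ ι hι
  have h3 := hb σ hσ σ⁻¹ hσi
  rw [mul_inv_cancel, hb.map_one hψ] at h3
  rw [h1, h2, hψ.map_mul σ hσ ι hι, hι1, mul_one]
  linear_combination (-1 : k) * h3

/-- If a `ψ`-cocycle on `D` vanishes on the kernel of `ψ` in a `D`-normal subgroup `I` on which
`ψ` is not trivial, then it is a coboundary on `D`. -/
theorem coboundary_of_vanish (I : Subgroup G) (hID : I ≤ D)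
    (hnorm : ∀ σ ∈ D, ∀ τ ∈ I, σ * τ * σ⁻¹ ∈ I)
    (hψ : IsMulOn D ψ) (hb : IsCocOn D ψ b)
    (hτ₀ : ∃ τ₀ ∈ I, ψ τ₀ ≠ 1)
    (hvan : ∀ ι ∈ I, ψ ι = 1 → b ι = 0) : IsCobOn D ψ b := by
  obtain ⟨τ₀, hτ₀I, hτ₀⟩ := hτ₀
  have hτ₀D : τ₀ ∈ D := hID hτ₀I
  have hne : ψ τ₀ - 1 ≠ 0 := sub_ne_zero.mpr hτ₀
  refine ⟨b τ₀ / (ψ τ₀ - 1), fun σ hσ => ?_⟩
  set m : k := b τ₀ / (ψ τ₀ - 1) with hm
  -- the difference `b'` is a cocycle vanishing at `τ₀` and on the kernel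
  set b' : G → k := fun σ => b σ + (-1) * ((ψ σ - 1) * m) with hb'
  have hcoc' : IsCocOn D ψ b' := hb.add ((isCocOn_coboundary hψ m).smul (-1))
  have hb'τ₀ : b' τ₀ = 0 := by
    show b τ₀ + (-1) * ((ψ τ₀ - 1) * m) = 0
    rw [hm]
    field_simp
    ring
  have hvan' : ∀ ι ∈ I, ψ ι = 1 → b' ι = 0 := by
    intro ι hι h1
    show b ι + (-1) * ((ψ ι - 1) * m) = 0
    rw [hvan ι hι h1, h1]
    ring
  -- the commutator
  set ι : G := σ * τ₀ * σ⁻¹ * τ₀⁻¹ with hιdef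
  have hιI : ι ∈ I := I.mul_mem (hnorm σ hσ τ₀ hτ₀I) (I.inv_mem hτ₀I)
  have hιD : ι ∈ D := hID hιI
  have hσi : σ⁻¹ ∈ D := D.inv_mem hσ
  have hι1 : ψ ι = 1 := by
    rw [hιdef, hψ.map_mul _ (D.mul_mem (D.mul_mem hσ hτ₀D) hσi) _ (D.inv_mem hτ₀D),
      hψ.map_mul _ (D.mul_mem hσ hτ₀D) _ hσi, hψ.map_mul _ hσ _ hτ₀D, hψ.map_inv hσ,
      hψ.map_inv hτ₀D]
    have h1 := hψ.ne_zero hσ
    have h2 := hψ.ne_zero hτ₀D
    field_simp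
  have hb'ι : b' ι = 0 := hvan' ι hιI hι1
  have heq : σ * τ₀ = ι * (τ₀ * σ) := by
    rw [hιdef]
    group
  have h1 : b' (σ * τ₀) = b' σ := by
    rw [hcoc' σ hσ τ₀ hτ₀D, hb'τ₀, mul_zero, add_zero]
  have h2 : b' (ι * (τ₀ * σ)) = ψ τ₀ * b' σ := by
    rw [hcoc' ι hιD (τ₀ * σ) (D.mul_mem hτ₀D hσ), hb'ι, hι1, one_mul, zero_add,
      hcoc' τ₀ hτ₀D σ hσ, hb'τ₀, zero_add]
  rw [heq, h2] at h1
  have h3 : (ψ τ₀ - 1) * b' σ = 0 := by linear_combination h1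
  have h4 : b' σ = 0 := (mul_eq_zero.mp h3).resolve_left hne
  have h5 : b σ + (-1) * ((ψ σ - 1) * m) = 0 := h4
  linear_combination h5

end

end Fermat.Agent.S56.H974
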