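import Mathlib

/-!
# Row S56 / FLAT-O / FO-CNT — the Frobenius-semilinear count (helper974)

Pure algebra (Mathlib only).  `κ` a field of characteristic `p`, `M` an invertible `f × f` matrix
with entries in the prime field (`M j i ^ p = M j i`).  The solutions `a ∈ κ^f` of the
Frobenius-semilinear system

  `a j ^ p = ∑ i, M j i * a i`

form an `𝔽_p`-vector space of dimension `≤ f` (Lang / Artin):

* `frobSol_dependent` : a `κ`-linearly dependent finite family of solutions satisfies a nontrivial
  linear relation with coefficients in the prime field;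
* `exists_primeField_relation` : more than `f` solutions always satisfy such a relation.
-/

set_option autoImplicit false

namespace Fermat.Agent.S56.H974

open Finset

variable {p : ℕ} [hp : Fact p.Prime] {κ : Type*} [Field κ] [CharP κ p] {f : ℕ}

/-- `a` solves the Frobenius-semilinear system attached to `M`. -/
def IsFrobSol (p : ℕ) (M : Matrix (Fin f) (Fin f) κ) (a : Fin f → κ) : Prop :=
  ∀ j, a j ^ p = ∑ i, M j i * a i

omit hp [CharP κ p] in
theorem isFrobSol_iff (M : Matrix (Fin f) (Fin f) κ) (a : Fin f → κ) :
    IsFrobSol p M a ↔ (fun j => a j ^ p) = M.mulVec a := by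
  constructor
  · intro h
    funext j
    rw [h j]
    rfl
  · intro h j
    have := congrFun h j
    rw [this]
    rfl

/-- Frobenius applied to a linear relation between solutions. -/
theorem frob_relation {ι : Type*} [Fintype ι] (M M' : Matrix (Fin f) (Fin f) κ)
    (hM : M' * M = 1) (v : ι → Fin f → κ) (hv : ∀ i, IsFrobSol p M (v i)) (c : ι → κ)
    (hc : ∑ i, c i • v i = 0) : ∑ i, (c i ^ p) • v i = 0 := by
  have h1 : M.mulVec (∑ i, (c i ^ p) • v i) = 0 := by
    rw [Matrix.mulVec_sum]
    have h2 : ∀ i, M.mulVec ((c i ^ p) • v i) = fun j => (c i * v i j) ^ p := by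
      intro i
      rw [Matrix.mulVec_smul, ← (isFrobSol_iff M (v i)).mp (hv i)]
      funext j
      simp only [Pi.smul_apply, smul_eq_mul, mul_pow]
    rw [Finset.sum_congr rfl fun i _ => h2 i]
    funext j
    rw [Finset.sum_apply, Pi.zero_apply, ← sum_pow_char p]
    have := congrFun hc j
    simp only [Finset.sum_apply, Pi.smul_apply, smul_eq_mul, Pi.zero_apply] at this
    rw [this, zero_pow (Fact.out : p.Prime).ne_zero]
  have h3 := congrArg M'.mulVec h1
  rwa [Matrix.mulVec_mulVec, hM, Matrix.one_mulVec, Matrix.mulVec_zero] at h3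

open Classical in
/-- **Artin's lemma for Frobenius-semilinear systems**: a nontrivial `κ`-linear relation between
solutions can be replaced by a nontrivial relation with coefficients in the prime field. -/
theorem frobSol_dependent {ι : Type*} [Fintype ι]
    (M M' : Matrix (Fin f) (Fin f) κ)
    (hM : M' * M = 1) (v : ι → Fin f → κ) (hv : ∀ i, IsFrobSol p M (v i)) :
    ∀ (n : ℕ) (c : ι → κ), (univ.filter fun i => c i ≠ 0).card = n → (∃ i, c i ≠ 0) →
      ∑ i, c i • v i = 0 →
      ∃ c' : ι → κ, (∀ i, c' i ^ p = c' i) ∧ (∃ i, c' i ≠ 0) ∧ ∑ i, c' i • v i = 0 := by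
  intro n
  induction n using Nat.strong_induction_on with
  | _ n ih =>
    intro c hcard ⟨i₀, hi₀⟩ hc
    -- normalise
    set d : ι → κ := fun i => c i / c i₀ with hd
    have hd0 : d i₀ = 1 := div_self hi₀
    have hdsum : ∑ i, d i • v i = 0 := by
      have : ∑ i, d i • v i = (c i₀)⁻¹ • ∑ i, c i • v i := by
        rw [Finset.smul_sum]
        refine Finset.sum_congr rfl fun i _ => ?_
        rw [smul_smul]
        show (c i / c i₀) • v i = _
        rw [div_eq_inv_mul]
      rw [this, hc, smul_zero]
    have hdp := frob_relation M M' hM v hv d hdsum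
    set e : ι → κ := fun i => d i ^ p - d i with he
    have hesum : ∑ i, e i • v i = 0 := by
      have : ∑ i, e i • v i = ∑ i, (d i ^ p) • v i - ∑ i, d i • v i := by
        rw [← Finset.sum_sub_distrib]
        refine Finset.sum_congr rfl fun i _ => ?_
        rw [he, sub_smul]
      rw [this, hdp, hdsum, sub_zero]
    by_cases hall : ∀ i, e i = 0
    · refine ⟨d, fun i => ?_, ⟨i₀, by rw [hd0]; exact one_ne_zero⟩, hdsum⟩
      have := hall i
      rw [he] at this
      exact sub_eq_zero.mp this
    · push Not at hall
      have hsub : (univ.filter fun i => e i ≠ 0) ⊂ (univ.filter fun i => c i ≠ 0) := by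
        rw [Finset.ssubset_iff_of_subset]
        · refine ⟨i₀, by simp [hi₀], ?_⟩
          simp only [mem_filter, mem_univ, true_and, not_not, he, hd0, one_pow, sub_self]
        · intro i hi
          simp only [mem_filter, mem_univ, true_and] at hi ⊢
          intro hci
          apply hi
          simp only [he, hd, hci, zero_div, zero_pow (Fact.out : p.Prime).ne_zero, sub_self]
      have hlt : (univ.filter fun i => e i ≠ 0).card < n := by
        rw [← hcard]
        exact Finset.card_lt_card hsub
      exact ih _ hlt e rfl hall hesum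

/-- More than `f` solutions satisfy a nontrivial relation with coefficients in the prime field. -/
theorem exists_primeField_relation {ι : Type*} [Fintype ι]
    (M M' : Matrix (Fin f) (Fin f) κ)
    (hM : M' * M = 1) (v : ι → Fin f → κ) (hv : ∀ i, IsFrobSol p M (v i))
    (hcard : f < Fintype.card ι) :
    ∃ c' : ι → κ, (∀ i, c' i ^ p = c' i) ∧ (∃ i, c' i ≠ 0) ∧ ∑ i, c' i • v i = 0 := by
  have hdep : ¬ LinearIndependent κ v := by
    intro hli
    have := hli.fintype_card_le_finrank
    rw [Module.finrank_fin_fun] at this
    omega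
  rw [Fintype.not_linearIndependent_iff] at hdep
  obtain ⟨c, hc, i, hi⟩ := hdep
  exact frobSol_dependent M M' hM v hv _ c rfl ⟨i, hi⟩ hc

/-- An element of a field of characteristic `p` fixed by Frobenius is the image of a natural
number `< p`. -/
theorem exists_natCast_of_pow_eq_self (x : κ) (hx : x ^ p = x) : ∃ n : ℕ, n < p ∧ (n : κ) = x := by
  have hmem : x ∈ (⊥ : Subfield κ) := (Subfield.mem_bot_iff_pow_eq_self κ p).mpr hx
  haveI : NeZero p := ⟨(Fact.out : p.Prime).ne_zero⟩
  -- the prime field is the image of `ZMod p`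
  letI := ZMod.algebra κ p
  have hbot : (⊥ : Subfield κ) = (algebraMap (ZMod p) κ).fieldRange := by
    symm
    rw [eq_bot_iff]
    rintro _ ⟨z, rfl⟩
    obtain ⟨n, rfl⟩ := ZMod.natCast_zmod_surjective z
    rw [map_natCast]
    exact natCast_mem _ n
  rw [hbot] at hmem
  obtain ⟨z, rfl⟩ := hmem
  refine ⟨z.val, ZMod.val_lt z, ?_⟩
  conv_rhs => rw [← ZMod.natCast_zmod_val z]
  rw [map_natCast]

end Fermat.Agent.S56.H974
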