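import Fermat.Agent.S56.H974.KumCoc
import Fermat.Agent.S56.H974.LangCount

/-!
# Row S56 / FLAT-O — leaf KUM: `kum : H906.KumStatement` (helper974)

The peu ramifié classes in `H¹(D_P, k(a))`, `a|_{I_P} = ω`, span at most one dimension.

For two peu ramifié cocycles `c, c'` there is `(x, x') ≠ 0` with `x c + x' c'` a coboundary on
`D_P` (`exists_combination_isCobOn`).  Proof: the residue invariants `ā(ℓ) ∈ κ` of the Kummer data
of the components `ℓ ∘ c` (`KumRel`) satisfy the Frobenius-semilinear system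
`ā(ℓ ∘ u) = ā(ℓ)^p`, `u = ω(φ)/a(φ)`; the solutions of such a system in `κ^f` (`f = [k : 𝔽_p]`)
form an `𝔽_p`-space of dimension `≤ f` (`LangCount`), so the `2 f` vectors attached to
`e_i c`, `e_i c'` are `𝔽_p`-dependent; the combination has residue invariants `0`, hence vanishes
on `I₁` (`KumRel.vanish_of_zero`), hence is a coboundary (`coboundary_of_vanish`).
-/

set_option autoImplicit false
set_option linter.style.haveILetI false
set_option linter.unusedSectionVars false

open scoped Pointwise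

namespace Fermat.Agent.S56.H974

open Fermat.Agent.S56 Fermat.Agent.S56.H786 Fermat.Agent.S56.H906 Fermat.Agent.Lib.Cheb.H476

section linalg

variable {p : ℕ} [hp : Fact p.Prime] {k : Type} [Field k] [CharP k p] [Algebra (ZMod p) k]
  {f : ℕ} (e : Module.Basis (Fin f) (ZMod p) k)

/-- Scalar multiplication by `r : ZMod p` is multiplication by the natural number `r.val`. -/
theorem zmod_smul_eq (r : ZMod p) (w : k) : r • w = (r.val : k) * w := by
  rw [Algebra.smul_def]
  congr 1
  conv_lhs => rw [← ZMod.natCast_zmod_val r]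
  rw [map_natCast]

/-- Expansion in a basis with natural number coefficients. -/
theorem natRepr (y : k) : y = ∑ i, ((e.repr y i).val : k) * e i := by
  conv_lhs => rw [← e.sum_repr y]
  exact Finset.sum_congr rfl fun i _ => zmod_smul_eq _ _

/-- An additive functional applied to a product with a basis expansion. -/
theorem addHom_mul_expand (ℓ : k →+ ZMod p) (y z : k) :
    ℓ (y * z) = ∑ i, (e.repr y i).val • ℓ (e i * z) := by
  conv_lhs => rw [natRepr e y, Finset.sum_mul, map_sum]
  refine Finset.sum_congr rfl fun i _ => ?_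
  rw [mul_assoc, ← nsmul_eq_mul, map_nsmul]

/-- If `ℓ₀ (e j * z) = 0` for all `j` and `ℓ₀ ≠ 0` at some `e i₀`, then `z = 0`. -/
theorem eq_zero_of_forall_addHom_basis_mul (ℓ₀ : k →+ ZMod p) (i₀ : Fin f)
    (h0 : ℓ₀ (e i₀) ≠ 0) (z : k) (h : ∀ j, ℓ₀ (e j * z) = 0) : z = 0 := by
  by_contra hz
  apply h0
  have h1 := addHom_mul_expand e ℓ₀ (e i₀ * z⁻¹) z
  rw [mul_assoc, inv_mul_cancel₀ hz, mul_one] at h1
  rw [h1]
  exact Finset.sum_eq_zero fun i _ => by rw [h i, smul_zero]

end linalg

section final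

variable {p : ℕ} [hp : Fact p.Prime] {k : Type} [Field k] [Finite k] [CharP k p]
  {P : ValuationSubring Qb} {a : GQ → k}

/-- The matrix of multiplication by `u` on `k` (transposed, with entries in `κ`). -/
noncomputable def frobMat {p : ℕ} {k : Type} [Field k] [Algebra (ZMod p) k] {f : ℕ}
    (e : Module.Basis (Fin f) (ZMod p) k) (κ : Type*) [Field κ] (u : k) :
    Matrix (Fin f) (Fin f) κ :=
  fun j i => (((e.repr (u * e j) i).val : ℕ) : κ)

/-- The Frobenius-semilinear system satisfied by the residue invariants. -/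
theorem isFrobSol_of_kumRel [Algebra (ZMod p) k] {f : ℕ}
    (e : Module.Basis (Fin f) (ZMod p) k) (ℓ₀ : k →+ ZMod p)
    (hP : P.LiesOverPrime p) {ζ : Qb} (hζ : IsPrimitiveRoot ζ p) (ha : IsOrdChar p P a)
    {c : GQ → k} (hc : IsLocCocycle P a c) {φ : GQ} (hφ : P.IsFrobeniusAt φ p) {n : ℕ}
    (hn : IsCycExp p φ n) (x : k) (v : Fin f → IsLocalRing.ResidueField P)
    (hv : ∀ j, KumRel p P ζ (fun ι => ℓ₀ (e j * x * c ι)) (v j)) :
    IsFrobSol p (frobMat e (IsLocalRing.ResidueField P) ((n : k) * (a φ)⁻¹)) v := by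
  intro j
  have hζ1 := hζ.pow_eq_one
  have h1 := kumRel_frob_cocycle hζ ha hc hφ hn
    (ℓ₀.comp (AddMonoidHom.mulLeft (e j * x))) (hv j)
  have h2 := KumRel.sum hP hζ1 Finset.univ
    (fun i ι => (e.repr ((n : k) * (a φ)⁻¹ * e j) i).val • ℓ₀ (e i * x * c ι))
    (fun i => (e.repr ((n : k) * (a φ)⁻¹ * e j) i).val • v i)
    (fun i _ => (hv i).nsmul hP hζ1 _)
  have h3 := h1.unique hP hζ h2 (fun ι _ _ => by
    show ℓ₀ (e j * x * ((n : k) * (a φ)⁻¹ * c ι)) = _
    have e1 : e j * x * ((n : k) * (a φ)⁻¹ * c ι) = ((n : k) * (a φ)⁻¹ * e j) * (x * c ι) := by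
      ring
    rw [e1, addHom_mul_expand e ℓ₀]
    exact Finset.sum_congr rfl fun i _ => by rw [mul_assoc (e i) x (c ι)])
  rw [h3]
  exact Finset.sum_congr rfl fun i _ => nsmul_eq_mul _ _

/-- The matrix of the Frobenius-semilinear system is invertible. -/
theorem exists_matrix_inverse [Algebra (ZMod p) k] {f : ℕ}
    (e : Module.Basis (Fin f) (ZMod p) k) (κ : Type*) [Field κ] [CharP κ p] {u : k}
    (hu : u ≠ 0) :
    ∃ M' : Matrix (Fin f) (Fin f) κ, M' * frobMat e κ u = 1 := by
  have hM : frobMat e κ u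
      = (Matrix.transpose (Algebra.leftMulMatrix e u)).map (ZMod.castHom (dvd_refl p) κ) := by
    funext j i
    rw [Matrix.map_apply, Matrix.transpose_apply, Algebra.leftMulMatrix_eq_repr_mul,
      ZMod.castHom_apply, ← ZMod.natCast_val]
    rfl
  refine ⟨(Matrix.transpose (Algebra.leftMulMatrix e u⁻¹)).map
    (ZMod.castHom (dvd_refl p) κ), ?_⟩
  rw [hM, ← Matrix.map_mul, ← Matrix.transpose_mul, ← map_mul, mul_inv_cancel₀ hu, map_one,
    Matrix.transpose_one, Matrix.map_one _ (map_zero _) (map_one _)]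

/-- **Two peu ramifié cocycles are dependent modulo coboundaries.** -/
theorem exists_combination_isCobOn (hp2 : p ≠ 2) (hP : P.LiesOverPrime p)
    (ha : IsOrdChar p P a) {c c' : GQ → k}
    (hc : IsLocCocycle P a c) (hcp : IsPeu p P c)
    (hc' : IsLocCocycle P a c') (hcp' : IsPeu p P c') :
    ∃ x x' : k, (x ≠ 0 ∨ x' ≠ 0) ∧
      IsCobOn (P.decompositionSubgroup ℚ) a (fun σ => x * c σ + x' * c' σ) := by
  classical
  have hp' : p.Prime := hp.out
  obtain ⟨ζ, hζ⟩ := Fermat.Agent.S56.H966.exists_primitiveRoot_Qb p hp'.ne_zero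
  have hζ1 := hζ.pow_eq_one
  obtain ⟨φ, hφ⟩ := Fermat.Agent.Lib.Cheb.H643.exists_isFrobeniusAt p hp' P hP
  have hφD : φ ∈ P.decompositionSubgroup ℚ := ((isFrobeniusAt_iff P φ p).mp hφ).1
  obtain ⟨n, hn⟩ := exists_isCycExp hζ φ
  have hu0 : (n : k) * (a φ)⁻¹ ≠ 0 :=
    mul_ne_zero (Fermat.Agent.S56.H656.isCycExp_cast_ne_zero hp' hn)
      (inv_ne_zero (ordChar_ne_zero ha hφD))
  haveI := charP_resField P p hp' hP
  letI : Algebra (ZMod p) k := ZMod.algebra k p
  -- a basis of `k` over `𝔽_p` and a nonzero functional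
  let e := Module.finBasis (ZMod p) k
  have hfpos : 0 < Module.finrank (ZMod p) k := Module.finrank_pos
  let i₀ : Fin (Module.finrank (ZMod p) k) := ⟨0, hfpos⟩
  let ℓ₀ : k →+ ZMod p := (e.coord i₀).toAddMonoidHom
  have hℓ₀ : ℓ₀ (e i₀) ≠ 0 := by
    show e.coord i₀ (e i₀) ≠ 0
    rw [Module.Basis.coord_apply, Module.Basis.repr_self, Finsupp.single_eq_same]
    exact one_ne_zero
  -- the residue invariants
  have hex : ∀ (d : GQ → k), IsLocCocycle P a d → IsPeu p P d →
      ∀ i j, ∃ abar : IsLocalRing.ResidueField P,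
        KumRel p P ζ (fun ι => ℓ₀ (e j * e i * d ι)) abar := fun d hd hdp i j =>
    exists_kumRel_of_isPeu hP hζ ha hd hdp (ℓ₀.comp (AddMonoidHom.mulLeft (e j * e i)))
  choose A hA using hex c hc hcp
  choose A' hA' using hex c' hc' hcp'
  obtain ⟨M', hM'⟩ := exists_matrix_inverse e (IsLocalRing.ResidueField P) hu0
  -- the family of `2 f` solutions
  let v : Fin (Module.finrank (ZMod p) k) ⊕ Fin (Module.finrank (ZMod p) k) →
      Fin (Module.finrank (ZMod p) k) → IsLocalRing.ResidueField P := Sum.elim A A'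
  have hv : ∀ s, IsFrobSol p (frobMat e (IsLocalRing.ResidueField P) ((n : k) * (a φ)⁻¹))
      (v s) := by
    rintro (i | i)
    · exact isFrobSol_of_kumRel e ℓ₀ hP hζ ha hc hφ hn (e i) (A i) (hA i)
    · exact isFrobSol_of_kumRel e ℓ₀ hP hζ ha hc' hφ hn (e i) (A' i) (hA' i)
  have hcard : Module.finrank (ZMod p) k < Fintype.card
      (Fin (Module.finrank (ZMod p) k) ⊕ Fin (Module.finrank (ZMod p) k)) := by
    rw [Fintype.card_sum, Fintype.card_fin]
    omega
  obtain ⟨co, hco, ⟨s₀, hs₀⟩, hsum⟩ := exists_primeField_relation _ M' hM' v hv hcard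
  choose m hmlt hm using fun s => exists_natCast_of_pow_eq_self (p := p) (co s) (hco s)
  -- the combination
  refine ⟨∑ i, (m (Sum.inl i) : k) * e i, ∑ i, (m (Sum.inr i) : k) * e i, ?_, ?_⟩
  · -- `(x, x') ≠ 0`
    by_contra hcon
    push Not at hcon
    obtain ⟨hx, hx'⟩ := hcon
    have hli := e.linearIndependent
    rw [Fintype.linearIndependent_iff] at hli
    have hz : ∀ (g : Fin (Module.finrank (ZMod p) k) → ℕ),
        ∑ i, (g i : k) * e i = 0 → ∀ i, ((g i : ℕ) : IsLocalRing.ResidueField P) = 0 := by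
      intro g hg i
      have h1 : ∑ i, ((g i : ℕ) : ZMod p) • e i = 0 := by
        rw [← hg]
        refine Finset.sum_congr rfl fun i _ => ?_
        rw [Algebra.smul_def, map_natCast]
      have h2 := hli _ h1 i
      rw [ZMod.natCast_eq_zero_iff] at h2
      exact (CharP.cast_eq_zero_iff _ p _).mpr h2
    apply hs₀
    rcases s₀ with i | i
    · rw [← hm (Sum.inl i)]
      exact hz (fun i => m (Sum.inl i)) hx i
    · rw [← hm (Sum.inr i)]
      exact hz (fun i => m (Sum.inr i)) hx' i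
  · -- the combination is a coboundary
    set x : k := ∑ i, (m (Sum.inl i) : k) * e i with hx
    set x' : k := ∑ i, (m (Sum.inr i) : k) * e i with hx'
    have hψ := isMulOn_of_isOrdChar ha
    have hcoc : IsCocOn (P.decompositionSubgroup ℚ) a (fun σ => x * c σ + x' * c' σ) :=
      ((isCocOn_of_isLocCocycle hc).smul x).add ((isCocOn_of_isLocCocycle hc').smul x')
    obtain ⟨τ₀, hτ₀, n₀, hn₀, hne⟩ :=
      Fermat.Agent.S56.H656.exists_inertia_isCycExp_ne_one hp' hp2 k P hP
    refine coboundary_of_vanish (P.inertiaSubgroupIn ℚ)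
      (fun σ hσ => inertia_le_decomposition P hσ)
      (fun σ hσ τ hτ => conj_mem_inertia_of_mem P hσ hτ) hψ hcoc
      ⟨τ₀, hτ₀, by rw [ha.cyc τ₀ hτ₀ n₀ hn₀]; exact hne⟩ ?_
    intro ι hι hι1
    have hιζ : ι ζ = ζ := apply_eq_of_ordChar_eq_one hζ ha hι hι1
    apply eq_zero_of_forall_addHom_basis_mul e ℓ₀ i₀ hℓ₀
    intro j
    -- the Kummer datum of the `j`-th component of the combination
    have hk := KumRel.sum hP hζ1 Finset.univ
      (fun s ι => m s • Sum.elim (fun i => ℓ₀ (e j * e i * c ι))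
        (fun i => ℓ₀ (e j * e i * c' ι)) s)
      (fun s => m s • v s j)
      (fun s _ => by
        rcases s with i | i
        · exact (hA i j).nsmul hP hζ1 _
        · exact (hA' i j).nsmul hP hζ1 _)
    have hzero : ∑ s, m s • v s j = 0 := by
      have h1 : (∑ s, co s • v s) j = 0 := by
        rw [hsum]
        rfl
      rw [Finset.sum_apply] at h1
      rw [← h1]
      refine Finset.sum_congr rfl fun s _ => ?_
      rw [nsmul_eq_mul, hm s]
      rfl
    rw [hzero] at hk
    have hvan := hk.vanish_of_zero hp2 hP hζ ι hι hιζ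
    rw [Fintype.sum_sum_type] at hvan
    simp only [Sum.elim_inl, Sum.elim_inr] at hvan
    rw [← hvan]
    show ℓ₀ (e j * (x * c ι + x' * c' ι)) = _
    rw [mul_add, map_add, hx, hx', Finset.sum_mul, Finset.sum_mul, Finset.mul_sum,
      Finset.mul_sum, map_sum, map_sum]
    congr 1
    · refine Finset.sum_congr rfl fun i _ => ?_
      rw [← map_nsmul, nsmul_eq_mul]
      congr 1
      ring
    · refine Finset.sum_congr rfl fun i _ => ?_
      rw [← map_nsmul, nsmul_eq_mul]
      congr 1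
      ring

end final

/-- **(KUM)** the peu ramifié classes in `H¹(D_P, k(a))`, `a|_{I_P}` cyclotomic, span at most one
dimension: the frozen leaf `H906.KumStatement`. -/
theorem kum : Fermat.Agent.S56.H906.KumStatement := by
  intro p _ hp2 k _ _ _ P hP a ha
  classical
  by_cases h : ∃ c₀ : GQ → k, IsLocCocycle P a c₀ ∧ IsPeu p P c₀ ∧
      ¬ IsCobOn (P.decompositionSubgroup ℚ) a c₀
  · obtain ⟨c₀, hc₀, hp₀, hn₀⟩ := h
    refine ⟨c₀, fun c hc hcp => ?_⟩
    obtain ⟨x, x', hxx, m, hm⟩ := exists_combination_isCobOn hp2 hP ha hc₀ hp₀ hc hcp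
    have hx' : x' ≠ 0 := by
      intro h0
      have hx : x ≠ 0 := hxx.resolve_right (not_not.mpr h0)
      apply hn₀
      refine ⟨m / x, fun σ hσ => ?_⟩
      have h1 := hm σ hσ
      simp only [h0, zero_mul, add_zero] at h1
      field_simp
      linear_combination h1
    refine ⟨-(x / x'), m / x', fun σ hσ => ?_⟩
    have h1 := hm σ hσ
    simp only at h1
    field_simp
    linear_combination h1
  · push Not at h
    refine ⟨fun _ => 0, fun c hc hcp => ?_⟩
    obtain ⟨m, hm⟩ := h c hc hcp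
    exact ⟨0, m, fun σ hσ => by rw [hm σ hσ]; ring⟩

end Fermat.Agent.S56.H974
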