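import Fermat.Agent.S56.H974.KumNorm
import Fermat.Agent.S56.H974.CocycleCalc
import Fermat.Agent.S56.H906.FlatOSpec

/-!
# Row S56 / FLAT-O / KUM — Kummer data of the components of a peu ramifié cocycle (helper974)

`a : D_P → k^×` a character with `a|_I = ω`, `c` an `a`-cocycle on `D_P`, peu ramifié.

* `exists_kumRel_of_isPeu` : every component `ℓ ∘ c` (`ℓ : k →+ 𝔽_p`) has a Kummer datum;
* `kumRel_frob_cocycle` : `KumRel (ℓ ∘ c) ā → KumRel (ℓ ∘ (u • c)) (ā ^ p)`,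
  `u = ω(φ) / a(φ)` for a Frobenius element `φ`.
-/

set_option autoImplicit false
set_option linter.style.haveILetI false
set_option linter.unusedSectionVars false

open scoped Pointwise

namespace Fermat.Agent.S56.H974

open Fermat.Agent.S56 Fermat.Agent.S56.H786 Fermat.Agent.S56.H906 Fermat.Agent.Lib.Cheb.H476

variable {p : ℕ} [hp : Fact p.Prime] {k : Type} [Field k] [CharP k p]
  {P : ValuationSubring Qb} {a : GQ → k} {ζ : Qb}

theorem isMulOn_of_isOrdChar (ha : IsOrdChar p P a) : IsMulOn (P.decompositionSubgroup ℚ) a :=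
  ⟨ha.map_one, ha.map_mul⟩

theorem isCocOn_of_isLocCocycle {c : GQ → k} (hc : IsLocCocycle P a c) :
    IsCocOn (P.decompositionSubgroup ℚ) a c :=
  hc.map_mul

/-- An element fixing `ζ` has cyclotomic exponent `1`. -/
theorem isCycExp_one_of_apply_eq (hζ : IsPrimitiveRoot ζ p) {ι : GQ} (hι : ι ζ = ζ) :
    IsCycExp p ι 1 := by
  intro μ hμ
  obtain ⟨i, -, rfl⟩ := hζ.eq_pow_of_pow_eq_one hμ
  rw [map_pow, hι, pow_one]

theorem ordChar_eq_one (hζ : IsPrimitiveRoot ζ p) (ha : IsOrdChar p P a) {ι : GQ}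
    (hι : ι ∈ P.inertiaSubgroupIn ℚ) (hιζ : ι ζ = ζ) : a ι = 1 := by
  have := ha.cyc ι hι 1 (isCycExp_one_of_apply_eq hζ hιζ)
  rwa [Nat.cast_one] at this

/-- Conversely, an element of inertia in the kernel of `a` fixes `ζ`. -/
theorem apply_eq_of_ordChar_eq_one (hζ : IsPrimitiveRoot ζ p) (ha : IsOrdChar p P a) {ι : GQ}
    (hι : ι ∈ P.inertiaSubgroupIn ℚ) (h1 : a ι = 1) : ι ζ = ζ := by
  obtain ⟨n, hn⟩ := exists_isCycExp hζ ι
  have h2 : ((n : ℕ) : k) = ((1 : ℕ) : k) := by rw [← ha.cyc ι hι n hn, h1, Nat.cast_one]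
  have h3 : n ≡ 1 [MOD p] := (CharP.natCast_eq_natCast k p).mp h2
  have hfin : IsOfFinOrder ζ :=
    isOfFinOrder_iff_pow_eq_one.mpr ⟨p, hp.out.pos, hζ.pow_eq_one⟩
  have h4 : ζ ^ n = ζ ^ 1 := by
    rw [hfin.pow_eq_pow_iff_modEq, ← hζ.eq_orderOf]
    exact h3
  rw [hn ζ hζ.pow_eq_one, h4, pow_one]

/-- `a(σ) ≠ 0`. -/
theorem ordChar_ne_zero (ha : IsOrdChar p P a) {σ : GQ} (hσ : σ ∈ P.decompositionSubgroup ℚ) :
    a σ ≠ 0 :=
  (isMulOn_of_isOrdChar ha).ne_zero hσ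

/-- An additive map to `ZMod p` commutes with multiplication by natural numbers. -/
theorem addHom_natCast_mul (ℓ : k →+ ZMod p) (n : ℕ) (z : k) :
    (n : ZMod p) * ℓ z = ℓ ((n : k) * z) := by
  rw [← nsmul_eq_mul, ← nsmul_eq_mul, map_nsmul]

/-- Conjugating the argument of a cocycle by `σ ∈ D` and twisting by the cyclotomic exponent. -/
theorem cyc_mul_comp_conj (hζ : IsPrimitiveRoot ζ p) (ha : IsOrdChar p P a) {c : GQ → k}
    (hc : IsLocCocycle P a c) (ℓ : k →+ ZMod p) {σ : GQ}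
    (hσ : σ ∈ P.decompositionSubgroup ℚ) {n : ℕ} {ι : GQ}
    (hι : ι ∈ P.inertiaSubgroupIn ℚ) (hιζ : ι ζ = ζ) :
    (n : ZMod p) * ℓ (c (σ⁻¹ * ι * σ)) = ℓ ((n : k) * (a σ)⁻¹ * c ι) := by
  have hψ := isMulOn_of_isOrdChar ha
  have h1 := cocycle_conj hψ (isCocOn_of_isLocCocycle hc) (inv_mem hσ)
    (inertia_le_decomposition P hι) (ordChar_eq_one hζ ha hι hιζ)
  rw [inv_inv, hψ.map_inv hσ] at h1
  rw [h1, addHom_natCast_mul, mul_assoc]

/-- Inertia-conjugates of a Kummer generator of a component of a cocycle are Kummer generators of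
the same component. -/
theorem kummer_conj (hζ : IsPrimitiveRoot ζ p) (ha : IsOrdChar p P a) {c : GQ → k}
    (hc : IsLocCocycle P a c) (ℓ : k →+ ZMod p) {B : Qb}
    (hB : ∀ σ ∈ P.inertiaSubgroupIn ℚ, σ ζ = ζ → σ B = ζ ^ (ℓ (c σ)).val * B) :
    ∀ τ ∈ P.inertiaSubgroupIn ℚ, ∀ ι ∈ P.inertiaSubgroupIn ℚ, ι ζ = ζ →
      ι (τ B) = zp ζ (ℓ (c ι)) * τ B := by
  intro τ hτ ι hι hιζ
  have hζ1 : ζ ^ p = 1 := hζ.pow_eq_one
  have hτD := inertia_le_decomposition P hτ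
  obtain ⟨n, hn⟩ := exists_isCycExp hζ τ
  have hconj : τ⁻¹ * ι * τ ∈ P.inertiaSubgroupIn ℚ := by
    have := conj_mem_inertia_of_mem P (inv_mem hτD) hι
    rwa [inv_inv] at this
  have h2 : (τ⁻¹ * ι * τ) ζ = ζ := by
    simp only [AlgEquiv.mul_apply]
    rw [hn ζ hζ1, map_pow, hιζ, ← hn ζ hζ1, inv_apply_apply]
  have h3 : ι (τ B) = τ ((τ⁻¹ * ι * τ) B) := by
    simp only [AlgEquiv.mul_apply]
    rw [apply_inv_apply]
  have h4 : (τ⁻¹ * ι * τ) B = zp ζ (ℓ (c (τ⁻¹ * ι * τ))) * B := hB _ hconj h2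
  rw [h3, h4, map_mul, apply_zp hζ1 hn, cyc_mul_comp_conj hζ ha hc ℓ hτD hι hιζ,
    ha.cyc τ hτ n hn, mul_inv_cancel₀ (Fermat.Agent.S56.H656.isCycExp_cast_ne_zero hp.out hn),
    one_mul]

/-- Every component of a peu ramifié cocycle has a Kummer datum of unit type. -/
theorem exists_kumRel_of_isPeu (hP : P.LiesOverPrime p) (hζ : IsPrimitiveRoot ζ p)
    (ha : IsOrdChar p P a) {c : GQ → k} (hc : IsLocCocycle P a c) (hcp : IsPeu p P c)
    (ℓ : k →+ ZMod p) :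
    ∃ abar : IsLocalRing.ResidueField P, KumRel p P ζ (fun ι => ℓ (c ι)) abar := by
  obtain ⟨B, hBv, hB⟩ := hcp ζ hζ ℓ
  exact exists_kumRel hP hζ _ B hBv (kummer_conj hζ ha hc ℓ hB)

/-- Frobenius twist of the Kummer datum of a component of a cocycle. -/
theorem kumRel_frob_cocycle (hζ : IsPrimitiveRoot ζ p) (ha : IsOrdChar p P a) {c : GQ → k}
    (hc : IsLocCocycle P a c) {φ : GQ} (hφ : P.IsFrobeniusAt φ p) {n : ℕ}
    (hn : IsCycExp p φ n) (ℓ : k →+ ZMod p) {abar : IsLocalRing.ResidueField P}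
    (h : KumRel p P ζ (fun ι => ℓ (c ι)) abar) :
    KumRel p P ζ (fun ι => ℓ ((n : k) * (a φ)⁻¹ * c ι)) (abar ^ p) := by
  have hD : φ ∈ P.decompositionSubgroup ℚ := ((isFrobeniusAt_iff P φ p).mp hφ).1
  exact (h.frob hζ.pow_eq_one hφ hn).congr
    (fun ι hι hιζ => cyc_mul_comp_conj hζ ha hc ℓ hD hι hιζ)

end Fermat.Agent.S56.H974
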