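import Fermat.Agent.S56.H974.KumRel
import Fermat.Agent.S56.H656.LocOrdP

/-!
# Row S56 / FLAT-O / KUM — existence of Kummer data of unit type (helper974)

`exists_kumRel` : if `B` is a `P`-unit such that every inertia-conjugate `τ B` (`τ ∈ I`) is a
Kummer generator of the character `β` on `I₁ = {ι ∈ I : ι ζ = ζ}`, then `β` has a Kummer datum
`KumRel p P ζ β ā`.

Proof: `y₁ := ∏_μ τ_μ(B)` (`μ` the primitive `p`-th roots of unity, `τ_μ ∈ I`, `τ_μ ζ = μ`) is a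
Kummer generator of `(p-1) β = -β` and `N := y₁^p` is fixed by `I`.  The residue field is algebraic
over `𝔽_p`: `N^(p^m - 1) = 1 + p c` with `c ∈ P` fixed by `I` (the inertia field is unramified,
`H66.vg0_mem`), and `y₂ := N^(p^(m-1)) / y₁` does the job.
-/

set_option autoImplicit false
set_option linter.style.haveILetI false
set_option linter.unusedSectionVars false

open scoped Pointwise

namespace Fermat.Agent.S56.H974

open Fermat.Agent.S56 Fermat.Agent.S56.H786 Fermat.Agent.Lib.Cheb.H476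

/-- `G_ℚ` acts transitively on the primitive `p`-th roots of unity. -/
theorem exists_galois_apply_eq {p : ℕ} (hp : 0 < p) {ζ μ : Qb} (hζ : IsPrimitiveRoot ζ p)
    (hμ : IsPrimitiveRoot μ p) : ∃ g : GQ, g ζ = μ := by
  haveI : Algebra.IsAlgebraic ℚ Qb := AlgebraicClosure.isAlgebraic ℚ
  haveI : IsAlgClosure ℚ Qb := ⟨inferInstance, inferInstance⟩
  haveI : Normal ℚ Qb := IsAlgClosure.normal ℚ Qb
  have h : IsConjRoot ℚ μ ζ := by
    rw [isConjRoot_def, ← Polynomial.cyclotomic_eq_minpoly_rat hμ hp,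
      ← Polynomial.cyclotomic_eq_minpoly_rat hζ hp]
  exact isConjRoot_iff_exists_algEquiv.mp h

/-- The inertia group at `p` acts transitively on the primitive `p`-th roots of unity. -/
theorem exists_inertia_map_eq {p : ℕ} (hp : p.Prime) (P : ValuationSubring Qb)
    (hP : P.LiesOverPrime p) {ζ μ : Qb} (hζ : IsPrimitiveRoot ζ p) (hμ : IsPrimitiveRoot μ p) :
    ∃ τ ∈ P.inertiaSubgroupIn ℚ, τ ζ = μ := by
  obtain ⟨g, hg⟩ := exists_galois_apply_eq hp.pos hζ hμ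
  obtain ⟨σ, hσ, h⟩ := Fermat.Agent.S56.H656.exists_inertia_apply_eq hp P hP hζ g
  exact ⟨σ, hσ, h.trans hg⟩

variable {p : ℕ} [hp : Fact p.Prime] {P : ValuationSubring Qb} {ζ : Qb}

/-- Existence of a Kummer datum of unit type. -/
theorem exists_kumRel (hP : P.LiesOverPrime p) (hζ : IsPrimitiveRoot ζ p) (β : GQ → ZMod p)
    (B : Qb) (hB : P.valuation B = 1)
    (hinv : ∀ τ ∈ P.inertiaSubgroupIn ℚ, ∀ ι ∈ P.inertiaSubgroupIn ℚ, ι ζ = ζ →
      ι (τ B) = zp ζ (β ι) * τ B) :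
    ∃ abar : IsLocalRing.ResidueField P, KumRel p P ζ β abar := by
  classical
  have hp' : p.Prime := hp.out
  have hp0 : (p : Qb) ≠ 0 := by exact_mod_cast hp'.ne_zero
  have hζ1 : ζ ^ p = 1 := hζ.pow_eq_one
  -- representatives of `I / I₁`
  have hτ : ∀ μ : Qb, ∃ τ : GQ, τ ∈ P.inertiaSubgroupIn ℚ ∧
      (μ ∈ primitiveRoots p Qb → τ ζ = μ) := by
    intro μ
    by_cases h : μ ∈ primitiveRoots p Qb
    · obtain ⟨τ, hτ, hτζ⟩ :=
        exists_inertia_map_eq hp' P hP hζ ((mem_primitiveRoots hp'.pos).mp h)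
      exact ⟨τ, hτ, fun _ => hτζ⟩
    · exact ⟨1, one_mem _, fun h' => absurd h' h⟩
  choose t ht htζ using hτ
  have hID : ∀ {σ : GQ}, σ ∈ P.inertiaSubgroupIn ℚ → σ ∈ P.decompositionSubgroup ℚ :=
    fun h => inertia_le_decomposition P h
  -- the Kummer generator `y₁` of `(p - 1) β`
  set y₁ : Qb := ∏ μ ∈ primitiveRoots p Qb, t μ B with hy₁
  have hy₁v : P.valuation y₁ = 1 := by
    rw [hy₁, map_prod]
    exact Finset.prod_eq_one fun μ _ => valuation_map_eq_one P (hID (ht μ)) hB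
  have hy₁0 : y₁ ≠ 0 := by
    intro h0
    rw [h0, map_zero] at hy₁v
    exact zero_ne_one hy₁v
  have hy₁k : ∀ ι ∈ P.inertiaSubgroupIn ℚ, ι ζ = ζ →
      ι y₁ = zp ζ (β ι) ^ (p - 1) * y₁ := by
    intro ι hι hιζ
    rw [hy₁, map_prod, Finset.prod_congr rfl fun μ _ => hinv (t μ) (ht μ) ι hι hιζ,
      Finset.prod_mul_distrib, Finset.prod_const, hζ.card_primitiveRoots,
      Nat.totient_prime hp']
  -- `u = B ^ p` is fixed by `I₁`
  have hBk : ∀ ι ∈ P.inertiaSubgroupIn ℚ, ι ζ = ζ → ι B = zp ζ (β ι) * B := by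
    intro ι hι hιζ
    have := hinv 1 (one_mem _) ι hι hιζ
    rwa [AlgEquiv.one_apply] at this
  have hu : ∀ ι ∈ P.inertiaSubgroupIn ℚ, ι ζ = ζ → ι (B ^ p) = B ^ p := by
    intro ι hι hιζ
    rw [map_pow, hBk ι hι hιζ, mul_pow, zp_pow_self hζ1, one_mul]
  have hkey : ∀ σ ∈ P.inertiaSubgroupIn ℚ, ∀ σ' ∈ P.inertiaSubgroupIn ℚ, σ ζ = σ' ζ →
      σ (B ^ p) = σ' (B ^ p) := by
    intro σ hσ σ' hσ' h
    have h1 : (σ'⁻¹ * σ) ζ = ζ := by
      rw [AlgEquiv.mul_apply, h, inv_apply_apply]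
    have h2 := hu (σ'⁻¹ * σ) (mul_mem (inv_mem hσ') hσ) h1
    rw [AlgEquiv.mul_apply] at h2
    have h3 := congrArg σ' h2
    rwa [apply_inv_apply] at h3
  -- `N = y₁ ^ p` is fixed by `I`
  set N : Qb := y₁ ^ p with hN
  have hNprod : N = ∏ μ ∈ primitiveRoots p Qb, t μ (B ^ p) := by
    rw [hN, hy₁, ← Finset.prod_pow]
    exact Finset.prod_congr rfl fun μ _ => (map_pow _ _ _).symm
  have hNfix : ∀ τ ∈ P.inertiaSubgroupIn ℚ, τ N = N := by
    intro τ hτ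
    have hτprim : ∀ μ ∈ primitiveRoots p Qb, τ μ ∈ primitiveRoots p Qb := by
      intro μ hμ
      rw [mem_primitiveRoots hp'.pos] at hμ ⊢
      exact hμ.map_of_injective τ.injective
    have hτiprim : ∀ μ ∈ primitiveRoots p Qb, τ⁻¹ μ ∈ primitiveRoots p Qb := by
      intro μ hμ
      rw [mem_primitiveRoots hp'.pos] at hμ ⊢
      exact hμ.map_of_injective (τ⁻¹).injective
    rw [hNprod, map_prod]
    refine Finset.prod_bij (fun μ _ => τ μ) hτprim (fun a _ b _ h => τ.injective h)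
      (fun b hb => ⟨τ⁻¹ b, hτiprim b hb, apply_inv_apply τ b⟩) (fun μ hμ => ?_)
    have h1 : (τ * t μ) ζ = t (τ μ) ζ := by
      rw [AlgEquiv.mul_apply, htζ μ hμ, htζ (τ μ) (hτprim μ hμ)]
    have := hkey (τ * t μ) (mul_mem hτ (ht μ)) (t (τ μ)) (ht (τ μ)) h1
    rwa [AlgEquiv.mul_apply] at this
  have hNv : P.valuation N = 1 := by rw [hN, map_pow, hy₁v, one_pow]
  have hNP : N ∈ P := (P.valuation_le_one_iff N).mp hNv.le
  have hN0 : N ≠ 0 := pow_ne_zero _ hy₁0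
  have hNiP : N⁻¹ ∈ P := by
    rw [← P.valuation_le_one_iff, map_inv₀, hNv, inv_one]
  -- the residue field is algebraic over `𝔽_p`
  obtain ⟨m, hm, hNm⟩ := exists_pow_sub_mem_nonunits P p hp' hP N hNP
  have hpm : 1 ≤ p ^ m := Nat.one_le_pow _ _ hp'.pos
  have hpow1 : N ^ (p ^ m) = N ^ (p ^ m - 1) * N := by
    rw [← pow_succ, Nat.sub_add_cancel hpm]
  have ht₀ : N ^ (p ^ m - 1) - 1 ∈ P.nonunits := by
    have e : N ^ (p ^ m - 1) - 1 = (N ^ (p ^ m) - N) * N⁻¹ := by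
      rw [hpow1]
      field_simp
    rw [e]
    exact mul_mem_nonunits P hNm hNiP
  have ht₀fix : ∀ τ ∈ P.inertiaSubgroupIn ℚ, τ (N ^ (p ^ m - 1) - 1) = N ^ (p ^ m - 1) - 1 := by
    intro τ hτ
    rw [map_sub, map_pow, map_one, hNfix τ hτ]
  obtain ⟨c, hc, hNc⟩ := Fermat.Agent.S56.H66.vg0_mem P p hp' hP _ ht₀ ht₀fix
  have hcfix : ∀ τ ∈ P.inertiaSubgroupIn ℚ, τ c = c := by
    intro τ hτ
    have h1 := ht₀fix τ hτ
    rw [hNc, map_mul, map_natCast] at h1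
    exact mul_left_cancel₀ hp0 h1
  -- the Kummer generator
  refine ⟨IsLocalRing.residue P ⟨c, hc⟩, N ^ (p ^ (m - 1)) * y₁⁻¹, ⟨c, hc⟩, ?_,
    fun ι hι hιζ => ?_, ?_, hcfix, rfl⟩
  · rw [map_mul, map_pow, map_inv₀, hNv, hy₁v, one_pow, inv_one, one_mul]
  · have hz : zp ζ (β ι) ^ (p - 1) * zp ζ (β ι) = 1 := by
      rw [← pow_succ, Nat.sub_add_cancel hp'.one_lt.le, zp_pow_self hζ1]
    rw [map_mul, map_pow, map_inv₀, hNfix ι hι, hy₁k ι hι hιζ, mul_inv]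
    have : (zp ζ (β ι) ^ (p - 1))⁻¹ = zp ζ (β ι) := inv_eq_of_mul_eq_one_right hz
    rw [this]
    ring
  · show (N ^ (p ^ (m - 1)) * y₁⁻¹) ^ p = 1 + (p : Qb) * c
    rw [mul_pow, ← pow_mul, ← pow_succ, Nat.sub_add_cancel hm, inv_pow, ← hN, hpow1,
      mul_assoc, mul_inv_cancel₀ hN0, mul_one]
    linear_combination hNc

end Fermat.Agent.S56.H974
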