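import Fermat.Agent.S56.H974.ResAlg
import Fermat.Agent.S56.H66.VGArch
import Fermat.Agent.S56.H786.KummerH90

/-!
# Row S56 / FLAT-O / KUM — Kummer data of unit type (helper974)

`P | p` a place of `ℚ̄`, `I = I_P`, `ζ` a primitive `p`-th root of unity, `I₁ = {ι ∈ I : ι ζ = ζ}`,
`κ` the residue field of `P`.  For `β : G_ℚ → ZMod p` and `ā ∈ κ`:

`KumRel p P ζ β ā` : there are a unit `y` and `a ∈ P` fixed by `I` with
`ι y = ζ^{β ι} · y` (`ι ∈ I₁`), `y ^ p = 1 + p a`, and `ā` the residue class of `a`.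

* `KumRel.zero`, `KumRel.add`, `KumRel.nsmul`, `KumRel.neg`, `KumRel.sum`, `KumRel.congr`;
* `KumRel.frob` : Frobenius twist, `ā ↦ ā ^ p`;
* `KumRel.eq_zero_of_vanish` : `β = 0` on `I₁` ⇒ `ā = 0`;
* `KumRel.unique` : `ā` is determined by `β|_{I₁}`;
* `KumRel.vanish_of_zero` : `ā = 0` ⇒ `β = 0` on `I₁` (`p` odd).
-/

set_option autoImplicit false
set_option linter.style.haveILetI false
set_option linter.unusedSectionVars false

open scoped Pointwise

namespace Fermat.Agent.S56.H974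

open Fermat.Agent.S56 Fermat.Agent.S56.H786 Fermat.Agent.Lib.Cheb.H476

/-- The residue field of a valuation subring over the prime `p` has characteristic `p`. -/
theorem charP_resField (P : ValuationSubring Qb) (p : ℕ) (hp : p.Prime)
    (hP : P.LiesOverPrime p) : CharP (IsLocalRing.ResidueField P) p := by
  have hpm : ((p : ℕ) : P) ∈ IsLocalRing.maximalIdeal P := by
    obtain ⟨ha, hm⟩ := (ValuationSubring.mem_nonunits_iff_exists_mem_maximalIdeal).mp hP
    have : (⟨(p : Qb), ha⟩ : P) = ((p : ℕ) : P) := by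
      apply Subtype.ext
      simp
    rwa [this] at hm
  have h0 : ((p : ℕ) : IsLocalRing.ResidueField P) = 0 := by
    have := (IsLocalRing.residue_eq_zero_iff ((p : ℕ) : P)).mpr hpm
    rwa [map_natCast] at this
  haveI : Fact p.Prime := ⟨hp⟩
  exact (CharP.charP_iff_prime_eq_zero hp).mpr h0

/-- Kummer datum of unit type. -/
def KumRel (p : ℕ) (P : ValuationSubring Qb) (ζ : Qb) (β : GQ → ZMod p)
    (abar : IsLocalRing.ResidueField P) : Prop :=
  ∃ (y : Qb) (a : P), P.valuation y = 1 ∧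
    (∀ ι ∈ P.inertiaSubgroupIn ℚ, ι ζ = ζ → ι y = zp ζ (β ι) * y) ∧
    y ^ p = 1 + (p : Qb) * (a : Qb) ∧
    (∀ τ ∈ P.inertiaSubgroupIn ℚ, τ (a : Qb) = (a : Qb)) ∧
    IsLocalRing.residue P a = abar

section basic

variable {p : ℕ} [hp : Fact p.Prime] {P : ValuationSubring Qb} {ζ : Qb}

theorem KumRel.congr {β β' : GQ → ZMod p} {abar : IsLocalRing.ResidueField P}
    (h : KumRel p P ζ β abar)
    (hβ : ∀ ι ∈ P.inertiaSubgroupIn ℚ, ι ζ = ζ → β ι = β' ι) : KumRel p P ζ β' abar := by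
  obtain ⟨y, a, hy, hk, hpow, hfix, hres⟩ := h
  refine ⟨y, a, hy, fun ι hι hιζ => ?_, hpow, hfix, hres⟩
  rw [← hβ ι hι hιζ]
  exact hk ι hι hιζ

theorem KumRel.zero : KumRel p P ζ (fun _ => 0) 0 := by
  refine ⟨1, 0, map_one _, fun ι _ _ => ?_, ?_, fun τ _ => ?_, map_zero _⟩
  · rw [map_one, zp_zero, one_mul]
  · simp
  · simp

theorem KumRel.add (hP : P.LiesOverPrime p) (hζ : ζ ^ p = 1) {β β' : GQ → ZMod p}
    {abar abar' : IsLocalRing.ResidueField P}
    (h : KumRel p P ζ β abar) (h' : KumRel p P ζ β' abar') :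
    KumRel p P ζ (fun ι => β ι + β' ι) (abar + abar') := by
  haveI := charP_resField P p hp.out hP
  obtain ⟨y, a, hy, hk, hpow, hfix, hres⟩ := h
  obtain ⟨y', a', hy', hk', hpow', hfix', hres'⟩ := h'
  refine ⟨y * y', a + a' + (p : P) * a * a', ?_, fun ι hι hιζ => ?_, ?_, fun τ hτ => ?_, ?_⟩
  · rw [map_mul, hy, hy', one_mul]
  · rw [map_mul, hk ι hι hιζ, hk' ι hι hιζ, zp_add hζ]
    ring
  · rw [mul_pow, hpow, hpow']
    push_cast
    ring
  · push_cast
    rw [map_add, map_add, map_mul, map_mul, map_natCast, hfix τ hτ, hfix' τ hτ]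
  · rw [map_add, map_add, map_mul, map_mul, map_natCast, CharP.cast_eq_zero, zero_mul, zero_mul,
      add_zero, hres, hres']

theorem KumRel.nsmul (hP : P.LiesOverPrime p) (hζ : ζ ^ p = 1) {β : GQ → ZMod p}
    {abar : IsLocalRing.ResidueField P} (h : KumRel p P ζ β abar) (n : ℕ) :
    KumRel p P ζ (fun ι => n • β ι) (n • abar) := by
  induction n with
  | zero =>
    have := KumRel.zero (p := p) (P := P) (ζ := ζ)
    simpa using this
  | succ n ih =>
    have h1 := ih.add hP hζ h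
    have h2 : (n + 1) • abar = n • abar + abar := succ_nsmul abar n
    rw [h2]
    exact h1.congr (fun ι _ _ => (succ_nsmul (β ι) n).symm)

theorem KumRel.neg (hP : P.LiesOverPrime p) (hζ : ζ ^ p = 1) {β : GQ → ZMod p}
    {abar : IsLocalRing.ResidueField P} (h : KumRel p P ζ β abar) :
    KumRel p P ζ (fun ι => - β ι) (- abar) := by
  haveI := charP_resField P p hp.out hP
  have h1 := h.nsmul hP hζ (p - 1)
  have hp1 : 1 ≤ p := hp.out.one_lt.le
  have e1 : (p - 1) • abar = - abar := by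
    rw [nsmul_eq_mul, Nat.cast_sub hp1, CharP.cast_eq_zero, Nat.cast_one, zero_sub, neg_one_mul]
  have e2 : ∀ b : ZMod p, (p - 1) • b = - b := by
    intro b
    rw [nsmul_eq_mul, Nat.cast_sub hp1, CharP.cast_eq_zero, Nat.cast_one, zero_sub, neg_one_mul]
  rw [e1] at h1
  exact h1.congr (fun ι _ _ => e2 (β ι))

theorem KumRel.sum (hP : P.LiesOverPrime p) (hζ : ζ ^ p = 1) {α : Type*} (s : Finset α)
    (β : α → GQ → ZMod p) (abar : α → IsLocalRing.ResidueField P)
    (h : ∀ i ∈ s, KumRel p P ζ (β i) (abar i)) :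
    KumRel p P ζ (fun ι => ∑ i ∈ s, β i ι) (∑ i ∈ s, abar i) := by
  classical
  induction s using Finset.induction_on with
  | empty =>
    simp only [Finset.sum_empty]
    exact KumRel.zero
  | insert i s hi ih =>
    have h1 := (h i (Finset.mem_insert_self i s)).add hP hζ
      (ih (fun j hj => h j (Finset.mem_insert_of_mem hj)))
    rw [Finset.sum_insert hi]
    exact h1.congr (fun ι _ _ => (Finset.sum_insert (f := fun j => β j ι) hi).symm)

/-- The inertia group is normalised by the decomposition group. -/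
theorem conj_mem_inertia_of_mem (P : ValuationSubring Qb) {σ τ : GQ}
    (hσ : σ ∈ P.decompositionSubgroup ℚ) (hτ : τ ∈ P.inertiaSubgroupIn ℚ) :
    σ * τ * σ⁻¹ ∈ P.inertiaSubgroupIn ℚ := by
  have h := conj_mem_inertia σ hτ
  have hs : σ • P = P := MulAction.mem_stabilizer_iff.mp hσ
  rwa [hs] at h

/-- Frobenius twist of a Kummer datum. -/
theorem KumRel.frob (hζ : ζ ^ p = 1) {φ : GQ} (hφ : P.IsFrobeniusAt φ p) {n : ℕ}
    (hn : IsCycExp p φ n) {β : GQ → ZMod p} {abar : IsLocalRing.ResidueField P}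
    (h : KumRel p P ζ β abar) :
    KumRel p P ζ (fun ι => (n : ZMod p) * β (φ⁻¹ * ι * φ)) (abar ^ p) := by
  obtain ⟨hD, hF⟩ := (isFrobeniusAt_iff P φ p).mp hφ
  obtain ⟨y, a, hy, hk, hpow, hfix, hres⟩ := h
  have hφi : φ⁻¹ ∈ P.decompositionSubgroup ℚ := inv_mem hD
  have hconj : ∀ τ ∈ P.inertiaSubgroupIn ℚ, φ⁻¹ * τ * φ ∈ P.inertiaSubgroupIn ℚ := by
    intro τ hτ
    have := conj_mem_inertia_of_mem P hφi hτ
    rwa [inv_inv] at this
  have hcomm : ∀ (τ : GQ) (x : Qb), τ (φ x) = φ ((φ⁻¹ * τ * φ) x) := by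
    intro τ x
    simp only [AlgEquiv.mul_apply]
    rw [apply_inv_apply]
  refine ⟨φ y, ⟨φ a, map_mem P hD a.2⟩, valuation_map_eq_one P hD hy, fun ι hι hιζ => ?_, ?_,
    fun τ hτ => ?_, ?_⟩
  · have h2 : (φ⁻¹ * ι * φ) ζ = ζ := by
      simp only [AlgEquiv.mul_apply]
      rw [hn ζ hζ, map_pow, hιζ, ← hn ζ hζ, inv_apply_apply]
    rw [hcomm ι y, hk _ (hconj ι hι) h2, map_mul, apply_zp hζ hn]
  · rw [← map_pow, hpow, map_add, map_one, map_mul, map_natCast]
  · show τ (φ (a : Qb)) = φ (a : Qb)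
    rw [hcomm τ (a : Qb), hfix _ (hconj τ hτ)]
  · have h1 := hF a a.2
    rw [← hres, ← map_pow, ← sub_eq_zero, ← map_sub, IsLocalRing.residue_eq_zero_iff,
      ← ValuationSubring.coe_mem_nonunits_iff]
    exact h1

end basic

section vanish

variable {p : ℕ} [hp : Fact p.Prime] {P : ValuationSubring Qb} {ζ : Qb}

/-- `(x + z)^p = x^p + z^p + p x z r` with `r ∈ P`. -/
theorem exists_add_pow_prime_mem (P : ValuationSubring Qb) (p : ℕ) (hp : p.Prime) {x z : Qb}
    (hx : x ∈ P) (hz : z ∈ P) :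
    ∃ r ∈ P, (x + z) ^ p = x ^ p + z ^ p + (p : Qb) * x * z * r := by
  obtain ⟨r, hr⟩ := exists_add_pow_prime_eq hp (⟨x, hx⟩ : P) ⟨z, hz⟩
  refine ⟨r, r.2, ?_⟩
  have := congrArg (fun t : P => (t : Qb)) hr
  simpa using this

/-- A multiple of a non-unit by an element of `P` is a non-unit. -/
theorem mul_mem_nonunits (P : ValuationSubring Qb) {x z : Qb} (hx : x ∈ P.nonunits)
    (hz : z ∈ P) : x * z ∈ P.nonunits := by
  rw [ValuationSubring.mem_nonunits_iff] at hx ⊢
  rw [map_mul]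
  calc P.valuation x * P.valuation z ≤ P.valuation x * 1 := by
        gcongr
        exact (P.valuation_le_one_iff z).mpr hz
    _ = P.valuation x := mul_one _
    _ < 1 := hx

/-- (D←) a Kummer datum whose character vanishes on `I₁` has residue invariant `0`. -/
theorem KumRel.eq_zero_of_vanish (hP : P.LiesOverPrime p) (hζ : IsPrimitiveRoot ζ p)
    {β : GQ → ZMod p} {abar : IsLocalRing.ResidueField P} (h : KumRel p P ζ β abar)
    (hβ : ∀ ι ∈ P.inertiaSubgroupIn ℚ, ι ζ = ζ → β ι = 0) : abar = 0 := by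
  obtain ⟨y, a, hy, hk, hpow, hfix, hres⟩ := h
  have hp' : p.Prime := hp.out
  have hp0 : (p : Qb) ≠ 0 := by exact_mod_cast hp'.ne_zero
  have hyfix : ∀ ι ∈ P.inertiaSubgroupIn ℚ, ι ζ = ζ → ι y = y := by
    intro ι hι hιζ
    rw [hk ι hι hιζ, hβ ι hι hιζ, zp_zero, one_mul]
  have hyP : y ∈ P := (P.valuation_le_one_iff y).mp hy.le
  have hy1P : y - 1 ∈ P := sub_mem hyP P.one_mem
  -- `y - 1` is a non-unit
  obtain ⟨r, hr, hexp⟩ := exists_add_pow_prime_mem P p hp' hy1P P.one_mem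
  have h1 : (y - 1) ^ p = (p : Qb) * ((a : Qb) - (y - 1) * r) := by
    have e : y - 1 + 1 = y := by ring
    rw [e, hpow] at hexp
    linear_combination -hexp
  have hnu : y - 1 ∈ P.nonunits := by
    have h2 : (y - 1) ^ p ∈ P.nonunits := by
      rw [h1]
      exact mul_mem_nonunits P hP (sub_mem a.2 (mul_mem hy1P hr))
    rw [ValuationSubring.mem_nonunits_iff] at h2 ⊢
    by_contra hcon
    rw [not_lt] at hcon
    rw [map_pow] at h2
    exact absurd (one_le_pow₀ hcon) (not_le.mpr h2)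
  -- `y - 1 = (ζ - 1) c`
  obtain ⟨c, hc, hyc⟩ := Fermat.Agent.S56.H66.vg1_mem P p hp' hP ζ hζ (y - 1) hnu (by
    intro σ hσ hσζ
    rw [map_sub, map_one, hyfix σ hσ hσζ])
  have hπP : ζ - 1 ∈ P.nonunits :=
    (P.mem_nonunits_iff).mpr
      (Fermat.Agent.S14.H894.valuation_zeta_sub_one_lt_one P p hp' hP ζ hζ)
  have hπcP : (ζ - 1) * c ∈ P := mul_mem (P.nonunits_subset hπP) hc
  obtain ⟨r', hr', hexp'⟩ := exists_add_pow_prime_mem P p hp' P.one_mem hπcP
  have e' : 1 + (ζ - 1) * c = y := by rw [← hyc]; ring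
  rw [e', hpow] at hexp'
  -- `(ζ - 1)^(p-1) = p ε`
  set ε : Qb := (ζ - 1) ^ (p - 1) / (p : Qb) with hε
  have hεv : P.valuation ε = 1 := by
    rw [hε, map_div₀, map_pow,
      ← Fermat.Agent.S14.H894.valuation_natCast_eq_pow P p hp' ζ hζ]
    exact div_self (Fermat.Agent.S14.H894.valuation_natCast_prime_ne_zero P p hp')
  have hεP : ε ∈ P := (P.valuation_le_one_iff ε).mp hεv.le
  have hπp : (ζ - 1) ^ p = (ζ - 1) * ((p : Qb) * ε) := by
    rw [hε, mul_div_cancel₀ _ hp0]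
    conv_lhs => rw [← Nat.sub_add_cancel hp'.one_lt.le, pow_succ]
    ring
  have ha : (a : Qb) = (ζ - 1) * (ε * c ^ p + c * r') := by
    apply mul_left_cancel₀ hp0
    have : ((ζ - 1) * c) ^ p = (ζ - 1) * ((p : Qb) * ε) * c ^ p := by
      rw [mul_pow, hπp]
    linear_combination hexp' + this
  have hanu : (a : Qb) ∈ P.nonunits := by
    rw [ha]
    exact mul_mem_nonunits P hπP
      (add_mem (mul_mem hεP (pow_mem hc p)) (mul_mem hc hr'))
  rw [← hres, IsLocalRing.residue_eq_zero_iff, ← ValuationSubring.coe_mem_nonunits_iff]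
  exact hanu

/-- The residue invariant of a Kummer datum is determined by the character on `I₁`. -/
theorem KumRel.unique (hP : P.LiesOverPrime p) (hζ : IsPrimitiveRoot ζ p)
    {β β' : GQ → ZMod p} {abar abar' : IsLocalRing.ResidueField P}
    (h : KumRel p P ζ β abar) (h' : KumRel p P ζ β' abar')
    (hβ : ∀ ι ∈ P.inertiaSubgroupIn ℚ, ι ζ = ζ → β ι = β' ι) : abar = abar' := by
  have h1 := h.add hP hζ.pow_eq_one (h'.neg hP hζ.pow_eq_one)
  have h2 := h1.eq_zero_of_vanish hP hζ (fun ι hι hιζ => by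
    show β ι + - β' ι = 0
    rw [hβ ι hι hιζ, add_neg_cancel])
  exact add_neg_eq_zero.mp h2

/-- (D→) a Kummer datum with residue invariant `0` has trivial character on `I₁` (`p` odd). -/
theorem KumRel.vanish_of_zero (hp2 : p ≠ 2) (hP : P.LiesOverPrime p)
    (hζ : IsPrimitiveRoot ζ p) {β : GQ → ZMod p} (h : KumRel p P ζ β 0) :
    ∀ ι ∈ P.inertiaSubgroupIn ℚ, ι ζ = ζ → β ι = 0 := by
  obtain ⟨y, a, hy, hk, hpow, hfix, hres⟩ := h
  have hp' : p.Prime := hp.out
  have hp0 : (p : Qb) ≠ 0 := by exact_mod_cast hp'.ne_zero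
  have hanu : (a : Qb) ∈ P.nonunits := by
    rw [ValuationSubring.coe_mem_nonunits_iff, ← IsLocalRing.residue_eq_zero_iff]
    exact hres
  obtain ⟨c, hc, hac⟩ := Fermat.Agent.S56.H66.vg0_mem P p hp' hP (a : Qb) hanu hfix
  -- valuations
  have hπ1 := Fermat.Agent.S14.H894.valuation_zeta_sub_one_lt_one P p hp' hP ζ hζ
  have hπ0 := Fermat.Agent.S14.H894.valuation_zeta_sub_one_ne_zero P p hp' ζ hζ
  have hπpos : 0 < P.valuation (ζ - 1) := zero_lt_iff.mpr hπ0
  have hvp := Fermat.Agent.S14.H894.valuation_natCast_eq_pow P p hp' ζ hζ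
  have hprod : y ^ p - 1 = ∏ μ ∈ Polynomial.nthRootsFinset p (1 : Qb), (y - μ) := by
    have := congrArg (Polynomial.eval y) (Polynomial.X_pow_sub_one_eq_prod hp'.pos hζ)
    simpa [Polynomial.eval_prod] using this
  have hex : ∃ μ ∈ Polynomial.nthRootsFinset p (1 : Qb),
      P.valuation (y - μ) < P.valuation (ζ - 1) := by
    by_contra hcon
    push Not at hcon
    have h1 : P.valuation (ζ - 1) ^ p ≤ P.valuation (y ^ p - 1) := by
      rw [hprod, map_prod]
      calc P.valuation (ζ - 1) ^ p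
          = ∏ _μ ∈ Polynomial.nthRootsFinset p (1 : Qb), P.valuation (ζ - 1) := by
            rw [Finset.prod_const, hζ.card_nthRootsFinset]
        _ ≤ ∏ μ ∈ Polynomial.nthRootsFinset p (1 : Qb), P.valuation (y - μ) :=
            Finset.prod_le_prod' hcon
    have h2 : P.valuation (y ^ p - 1) ≤ P.valuation (ζ - 1) ^ (2 * (p - 1)) := by
      have e : y ^ p - 1 = (p : Qb) * (p : Qb) * c := by
        rw [hpow, hac]
        ring
      rw [e, map_mul, map_mul, hvp, mul_comm 2, pow_mul, sq]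
      calc P.valuation (ζ - 1) ^ (p - 1) * P.valuation (ζ - 1) ^ (p - 1) * P.valuation c
          ≤ P.valuation (ζ - 1) ^ (p - 1) * P.valuation (ζ - 1) ^ (p - 1) * 1 := by
            gcongr
            exact (P.valuation_le_one_iff c).mpr hc
        _ = _ := mul_one _
    have hlt : p < 2 * (p - 1) := by
      have := hp'.two_le
      omega
    have h3 : P.valuation (ζ - 1) ^ (2 * (p - 1)) < P.valuation (ζ - 1) ^ p :=
      pow_lt_pow_right_of_lt_one₀ hπpos hπ1 hlt
    exact absurd (h1.trans h2) (not_le.mpr h3)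
  obtain ⟨μ, hμ, hlt⟩ := hex
  have hμp : μ ^ p = 1 := (Polynomial.mem_nthRootsFinset hp'.pos 1).mp hμ
  have hμv : P.valuation μ = 1 := by
    have : P.valuation μ ^ p = 1 := by rw [← map_pow, hμp, map_one]
    exact (pow_eq_one_iff_left hp'.ne_zero).mp this
  intro ι hι hιζ
  have hιμ : ι μ = μ := by
    obtain ⟨i, -, rfl⟩ := hζ.eq_pow_of_pow_eq_one hμp
    rw [map_pow, hιζ]
  have hπne : ζ - 1 ≠ 0 := sub_ne_zero.mpr (hζ.ne_one hp'.one_lt)
  have hz : (y - μ) / (ζ - 1) ∈ P.nonunits := by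
    rw [ValuationSubring.mem_nonunits_iff, map_div₀]
    exact (div_lt_one₀ hπpos).mpr hlt
  have hιz := map_mem_nonunits P (inertia_le_decomposition P hι) hz
  rw [map_div₀, map_sub, map_sub, hk ι hι hιζ, hιμ, hιζ, map_one] at hιz
  by_contra hβ
  have hval0 : (β ι).val ≠ 0 := fun h0 => hβ ((ZMod.val_eq_zero _).mp h0)
  have hprim : IsPrimitiveRoot (zp ζ (β ι)) p := by
    refine hζ.pow_of_coprime _ ?_
    rw [Nat.coprime_comm, Nat.Prime.coprime_iff_not_dvd hp']
    intro hdvd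
    exact absurd (Nat.le_of_dvd (Nat.pos_of_ne_zero hval0) hdvd) (not_le.mpr (ZMod.val_lt _))
  have hv : P.valuation (zp ζ (β ι) - 1) = P.valuation (ζ - 1) :=
    Fermat.Agent.S14.H894.valuation_sub_one_eq_of_mem_primitiveRoots P p hp' ζ hζ
      ((mem_primitiveRoots hp'.pos).mpr hprim)
  have hzpP : zp ζ (β ι) ∈ P := by
    rw [← P.valuation_le_one_iff]
    exact Fermat.Agent.S14.H894.valuation_le_one_of_pow_eq_one P hp'.ne_zero
      (zp_pow_self hζ.pow_eq_one _)
  have hkey : μ * ((zp ζ (β ι) - 1) / (ζ - 1))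
      = (zp ζ (β ι) * y - μ) / (ζ - 1) - (y - μ) / (ζ - 1) * zp ζ (β ι) := by
    field_simp
    ring
  have hmem : μ * ((zp ζ (β ι) - 1) / (ζ - 1)) ∈ P.nonunits := by
    rw [hkey]
    exact sub_mem hιz (mul_mem_nonunits P hz hzpP)
  rw [ValuationSubring.mem_nonunits_iff, map_mul, map_div₀, hv, hμv, one_mul, div_self hπ0] at hmem
  exact lt_irrefl _ hmem

end vanish

end Fermat.Agent.S56.H974
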