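import Fermat.Agent.Lib.Cheb.H476.FrobConj
import Fermat.Agent.Lib.Cheb.H643.FrobAt

/-!
# Row S56 / FLAT-O / KUM — the residue field of a place of `ℚ̄` is algebraic over `𝔽_p` (helper974)

`P` a valuation subring of `ℚ̄` over the prime `p`.

* `map_mem_nonunits`, `map_mem`, `valuation_map_eq_one` : elements of the decomposition group
  preserve `P`, its maximal ideal and its units;
* `frob_pow_sub` : `φ^m x ≡ x^(p^m)` modulo the maximal ideal, for a Frobenius element `φ`;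
* `exists_pow_sub_mem_nonunits` : for `x ∈ P` there is `m ≥ 1` with `x^(p^m) - x ∈ 𝔪_P`.
-/

set_option autoImplicit false

namespace Fermat.Agent.S56.H974

open Fermat.Agent.Lib.Cheb.H476

local notation "Qb" => AlgebraicClosure ℚ
local notation "GQ" => (AlgebraicClosure ℚ ≃ₐ[ℚ] AlgebraicClosure ℚ)

variable (P : ValuationSubring Qb)

theorem map_mem {σ : GQ} (hσ : σ ∈ P.decompositionSubgroup ℚ) {x : Qb} (hx : x ∈ P) :
    σ x ∈ P :=
  ((mem_decomposition_iff P σ).mp hσ x).mpr hx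

theorem map_mem_nonunits {σ : GQ} (hσ : σ ∈ P.decompositionSubgroup ℚ) {x : Qb}
    (hx : x ∈ P.nonunits) : σ x ∈ P.nonunits := by
  rw [mem_nonunits_iff_or] at hx ⊢
  rcases hx with rfl | hx
  · left
    exact map_zero σ
  · right
    intro h
    apply hx
    rw [← map_inv₀] at h
    exact ((mem_decomposition_iff P σ).mp hσ _).mp h

theorem valuation_map_eq_one {σ : GQ} (hσ : σ ∈ P.decompositionSubgroup ℚ) {x : Qb}
    (hx : P.valuation x = 1) : P.valuation (σ x) = 1 := by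
  have h1 : x ∈ P := (P.valuation_le_one_iff x).mp hx.le
  have h2 : ¬ x ∈ P.nonunits := by
    rw [ValuationSubring.mem_nonunits_iff, hx]
    exact lt_irrefl _
  have h3 : σ x ∈ P := map_mem P hσ h1
  have h4 : ¬ σ x ∈ P.nonunits := by
    intro h
    apply h2
    have := map_mem_nonunits P (inv_mem hσ) h
    rwa [inv_apply_apply] at this
  rw [ValuationSubring.mem_nonunits_iff, not_lt] at h4
  exact le_antisymm ((P.valuation_le_one_iff _).mpr h3) h4

theorem inertia_le_decomposition {σ : GQ} (hσ : σ ∈ P.inertiaSubgroupIn ℚ) :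
    σ ∈ P.decompositionSubgroup ℚ :=
  ((mem_inertiaSubgroupIn_iff' P σ).mp hσ).1

/-- `φ^m x ≡ x^(p^m)` modulo the maximal ideal. -/
theorem frob_pow_sub (p : ℕ) (φ : GQ) (hφ : P.IsFrobeniusAt φ p) :
    ∀ (m : ℕ) (x : Qb), x ∈ P → (φ ^ m) x - x ^ (p ^ m) ∈ P.nonunits := by
  obtain ⟨hD, hF⟩ := (isFrobeniusAt_iff P φ p).mp hφ
  intro m
  induction m with
  | zero =>
    intro x _
    have : (φ ^ 0) x - x ^ (p ^ 0) = 0 := by
      rw [pow_zero, pow_zero, pow_one, AlgEquiv.one_apply, sub_self]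
    rw [this]
    exact P.nonunits.zero_mem
  | succ m ih =>
    intro x hx
    have h1 := ih x hx
    have h2 : (φ ^ (m + 1)) x - x ^ (p ^ (m + 1))
        = φ ((φ ^ m) x - x ^ (p ^ m)) + (φ (x ^ (p ^ m)) - (x ^ (p ^ m)) ^ p) := by
      rw [pow_succ', AlgEquiv.mul_apply, map_sub, pow_succ, pow_mul]
      ring
    rw [h2]
    exact P.nonunits.add_mem (map_mem_nonunits P hD h1) (hF _ (pow_mem hx _))

/-- Some positive power of any element of `G_ℚ` fixes a given element of `ℚ̄`. -/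
theorem exists_pow_apply_eq (φ : GQ) (x : Qb) : ∃ m : ℕ, 0 < m ∧ (φ ^ m) x = x := by
  have halg : IsAlgebraic ℚ x := (AlgebraicClosure.isAlgebraic ℚ).isAlgebraic x
  have hint : IsIntegral ℚ x := halg.isIntegral
  have hfin : ((minpoly ℚ x).rootSet Qb).Finite := Polynomial.rootSet_finite _ _
  have hmem : ∀ i : ℕ, (φ ^ i) x ∈ (minpoly ℚ x).rootSet Qb := by
    intro i
    rw [Polynomial.mem_rootSet]
    refine ⟨minpoly.ne_zero hint, ?_⟩
    rw [Polynomial.aeval_algEquiv, AlgHom.comp_apply]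
    simp [minpoly.aeval]
  have : Finite ((minpoly ℚ x).rootSet Qb) := hfin
  obtain ⟨i, j, hij, h⟩ := Finite.exists_ne_map_eq_of_infinite
    (fun i : ℕ => (⟨(φ ^ i) x, hmem i⟩ : (minpoly ℚ x).rootSet Qb))
  have h' : (φ ^ i) x = (φ ^ j) x := congrArg Subtype.val h
  -- WLOG `i < j`
  have key : ∀ i j : ℕ, i < j → (φ ^ i) x = (φ ^ j) x → ∃ m : ℕ, 0 < m ∧ (φ ^ m) x = x := by
    intro i j hlt h
    refine ⟨j - i, Nat.sub_pos_of_lt hlt, ?_⟩
    have hj : φ ^ j = φ ^ i * φ ^ (j - i) := by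
      rw [← pow_add]
      congr 1
      omega
    rw [hj, AlgEquiv.mul_apply] at h
    exact ((φ ^ i).injective h).symm
  rcases lt_or_gt_of_ne hij with hlt | hlt
  · exact key i j hlt h'
  · exact key j i hlt h'.symm

/-- The residue field of `P` is algebraic over `𝔽_p`: every `x ∈ P` satisfies
`x^(p^m) ≡ x` modulo the maximal ideal for some `m ≥ 1`. -/
theorem exists_pow_sub_mem_nonunits (p : ℕ) (hp : p.Prime) (hP : P.LiesOverPrime p)
    (x : Qb) (hx : x ∈ P) : ∃ m : ℕ, 0 < m ∧ x ^ (p ^ m) - x ∈ P.nonunits := by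
  obtain ⟨φ, hφ⟩ := Fermat.Agent.Lib.Cheb.H643.exists_isFrobeniusAt p hp P hP
  obtain ⟨m, hm, hfix⟩ := exists_pow_apply_eq φ x
  refine ⟨m, hm, ?_⟩
  have h := frob_pow_sub P p φ hφ m x hx
  rw [hfix] at h
  have := P.nonunits.neg_mem h
  rwa [neg_sub] at this

end Fermat.Agent.S56.H974
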